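import Mathlib.NumberTheory.EllipticDivisibilitySequence
import Mathlib.Algebra.MvPolynomial.CommRing
import Mathlib.Algebra.MvPolynomial.Eval
import Mathlib.RingTheory.MvPolynomial.Basic
import Mathlib.Tactic

/-!
# Ward's theorem: a normalised EDS satisfies the elliptic sequence relation

`normEDS b c d` (Mathlib) is defined through the doubling recurrences.  We prove that it satisfies
`W (m + n) * W (m - n) = W (m + 1) * W (m - 1) * W n ^ 2 - W (n + 1) * W (n - 1) * W m ^ 2`
for all integers `m n`, over any commutative ring.
-/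

set_option autoImplicit false

namespace Fermat.Agent.H72

section Abstract

variable {R : Type*} [CommRing R]

/-- The elliptic sequence relation at `(m, n)`. -/
def EDSRel (W : ℤ → R) (m n : ℤ) : Prop :=
  W (m + n) * W (m - n) = W (m + 1) * W (m - 1) * W n ^ 2 - W (n + 1) * W (n - 1) * W m ^ 2

/-- The "half-integer" elliptic relation at `(a, b)`. -/
def EDSRel' (W : ℤ → R) (a b : ℤ) : Prop :=
  W 2 * W (a + b + 1) * W (a - b) =
    W (a + 2) * W (a - 1) * W (b + 1) * W b - W (a + 1) * W a * W (b + 2) * W (b - 1)

/-- The doubling hypotheses. -/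
structure IsDoubling (W : ℤ → R) : Prop where
  zero : W 0 = 0
  one : W 1 = 1
  neg : ∀ n, W (-n) = -W n
  odd : ∀ m, W (2 * m + 1) = W (m + 2) * W m ^ 3 - W (m - 1) * W (m + 1) ^ 3
  even : ∀ m, W (2 * m) * W 2 =
    W (m - 1) ^ 2 * W m * W (m + 2) - W (m - 2) * W m * W (m + 1) ^ 2

variable {W : ℤ → R}

lemma EDSRel.cast {m n p q r s t u : ℤ} (h : EDSRel W m n) (hp : m + n = p) (hq : m - n = q)
    (hr : m + 1 = r) (hs : m - 1 = s) (ht : n + 1 = t) (hu : n - 1 = u) :
    W p * W q = W r * W s * W n ^ 2 - W t * W u * W m ^ 2 := by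
  subst hp hq hr hs ht hu; exact h

lemma EDSRel'.cast {a b p q r s t u v w : ℤ} (h : EDSRel' W a b) (hp : a + b + 1 = p)
    (hq : a - b = q) (hr : a + 2 = r) (hs : a - 1 = s) (ht : b + 1 = t) (hu : a + 1 = u)
    (hv : b + 2 = v) (hw : b - 1 = w) :
    W 2 * W p * W q = W r * W s * W t * W b - W u * W a * W v * W w := by
  subst hp hq hr hs ht hu hv hw; exact h

lemma IsDoubling.odd' (h : IsDoubling W) {m p q r s : ℤ} (hp : 2 * m + 1 = p) (hq : m + 2 = q)
    (hr : m - 1 = r) (hs : m + 1 = s) :
    W p = W q * W m ^ 3 - W r * W s ^ 3 := by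
  subst hp hq hr hs; exact h.odd m

lemma IsDoubling.even' (h : IsDoubling W) {m p q r s t : ℤ} (hp : 2 * m = p) (hq : m - 1 = q)
    (hr : m + 2 = r) (hs : m - 2 = s) (ht : m + 1 = t) :
    W p * W 2 = W q ^ 2 * W m * W r - W s * W m * W t ^ 2 := by
  subst hp hq hr hs ht; exact h.even m


/-- trivial instances of the relation -/
lemma IsDoubling.rel_zero (h : IsDoubling W) (m : ℤ) : EDSRel W m 0 := by
  have h1 : W (-1) = -1 := by rw [h.neg, h.one]
  simp only [EDSRel, add_zero, sub_zero, zero_add, zero_sub, h.zero, h.one, h1]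
  ring_nf

lemma IsDoubling.rel_one (h : IsDoubling W) (m : ℤ) : EDSRel W m 1 := by
  simp only [EDSRel, h.zero, h.one, sub_self]
  ring_nf

lemma IsDoubling.rel_self (h : IsDoubling W) (m : ℤ) : EDSRel W m m := by
  simp only [EDSRel, h.zero, sub_self]
  ring

lemma IsDoubling.rel_succ (h : IsDoubling W) (n : ℤ) : EDSRel W (n + 1) n := by
  have := h.odd' (m := n) (p := n + 1 + n) (q := n + 1 + 1) (r := n - 1) (s := n + 1)
    (by ring) (by ring) rfl rfl
  simp only [EDSRel, add_sub_cancel_left, add_sub_cancel_right, h.one]
  linear_combination this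

lemma IsDoubling.rel_succ_succ (h : IsDoubling W) (n : ℤ) : EDSRel W (n + 2) n := by
  have := h.even' (m := n + 1) (p := n + 2 + n) (q := n) (r := n + 2 + 1) (s := n - 1)
    (t := n + 2) (by ring) (by ring) (by ring) (by ring) (by ring)
  have e1 : n + 2 - n = 2 := by ring
  have e2 : n + 2 - 1 = n + 1 := by ring
  simp only [EDSRel, e1, e2]
  linear_combination this

lemma IsDoubling.rel'_zero (h : IsDoubling W) (a : ℤ) : EDSRel' W a 0 := by
  have h1 : W (-1) = -1 := by rw [h.neg, h.one]
  simp only [EDSRel', add_zero, sub_zero, zero_add, zero_sub, h.zero, h.one, h1]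
  ring_nf

lemma IsDoubling.rel'_one (h : IsDoubling W) (a : ℤ) : EDSRel' W a 1 := by
  have e1 : (1 : ℤ) + 1 = 2 := by norm_num
  simp only [EDSRel', h.zero, h.one, sub_self, e1]
  ring_nf

lemma IsDoubling.rel'_self (h : IsDoubling W) (a : ℤ) : EDSRel' W a a := by
  simp only [EDSRel', h.zero, sub_self]
  ring

lemma IsDoubling.rel'_succ (h : IsDoubling W) (b : ℤ) : EDSRel' W (b + 1) b := by
  have := h.even' (m := b + 1) (p := b + 1 + b + 1) (q := b) (r := b + 1 + 2) (s := b - 1)
    (t := b + 2) (by ring) (by ring) (by ring) (by ring) (by ring)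
  have e1 : b + 1 - b = 1 := by ring
  have e2 : b + 1 - 1 = b := by ring
  have e3 : b + 1 + 1 = b + 2 := by ring
  simp only [EDSRel', e1, e2, e3, h.one]
  linear_combination this


/-- The 2x2 Lagrange (Plücker) identity used in the induction. -/
lemma lagrange_aux (a1 a2 b1 b2 c1 c2 d1 d2 : R) :
    (a1 * b2 - b1 * a2) * (c1 * d2 - d1 * c2) - (a1 * d2 - d1 * a2) * (c1 * b2 - b1 * c2) =
      (a1 * c2 - c1 * a2) * (b1 * d2 - d1 * b2) := by
  ring

theorem IsDoubling.key [IsDomain R] (h : IsDoubling W) (h2 : W 2 ≠ 0) (N : ℕ) :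
    (∀ m n : ℤ, 0 ≤ n → n ≤ m → m + n ≤ N → EDSRel W m n) ∧
    (∀ a b : ℤ, 0 ≤ b → b ≤ a → a + b + 1 ≤ N → EDSRel' W a b) := by
  induction N with
  | zero =>
    constructor
    · intro m n hn hnm hs
      have hn0 : n = 0 := by omega
      subst hn0
      exact h.rel_zero m
    · intro a b hb hba hs
      omega
  | succ N ih =>
    obtain ⟨ihE, ihE'⟩ := ih
    constructor
    · intro m n hn hnm hs
      by_cases hlt : m + n ≤ N
      · exact ihE m n hn hnm hlt
      have hsum : m + n = N + 1 := by push_cast at hs; omega
      rcases eq_or_ne n 0 with rfl | hn0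
      · exact h.rel_zero m
      rcases eq_or_ne n 1 with rfl | hn1
      · exact h.rel_one m
      rcases eq_or_ne m n with rfl | hmn0
      · exact h.rel_self m
      rcases eq_or_ne m (n + 1) with rfl | hmn1
      · exact h.rel_succ n
      rcases eq_or_ne m (n + 2) with rfl | hmn2
      · exact h.rel_succ_succ n
      rcases Int.even_or_odd' (m - n) with ⟨i, hi | hi⟩
      · -- m - n = 2 i, even case, uses EDSRel'
        obtain ⟨k, hk⟩ : ∃ k, k = n + i := ⟨_, rfl⟩
        have hm : m = k + i := by omega
        have hn' : n = k - i := by omega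
        subst hm hn'
        have hA := (ihE' k i (by omega) (by omega) (by omega)).cast (p := k + i + 1) (q := k - i)
          (r := k + 2) (s := k - 1) (t := i + 1) (u := k + 1) (v := i + 2) (w := i - 1)
          rfl rfl rfl rfl rfl rfl rfl rfl
        have hB := (ihE' (k - 1) (i - 1) (by omega) (by omega) (by omega)).cast
          (p := k + i - 1) (q := k - i)
          (r := k + 1) (s := k - 2) (t := i) (u := k) (v := i + 1) (w := i - 2)
          (by ring) (by ring) (by ring) (by ring) (by ring) (by ring) (by ring) (by ring)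
        have hC := (ihE' k (i - 1) (by omega) (by omega) (by omega)).cast
          (p := k + i) (q := k - i + 1)
          (r := k + 2) (s := k - 1) (t := i) (u := k + 1) (v := i + 1) (w := i - 2)
          (by ring) (by ring) (by ring) (by ring) (by ring) (by ring) (by ring) (by ring)
        have hD := (ihE' (k - 1) i (by omega) (by omega) (by omega)).cast
          (p := k + i) (q := k - i - 1)
          (r := k + 1) (s := k - 2) (t := i + 1) (u := k) (v := i + 2) (w := i - 1)
          (by ring) (by ring) (by ring) (by ring) (by ring) (by ring) (by ring) (by ring)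
        have hk2 := h.even' (m := k) (p := k + i + (k - i)) (q := k - 1) (r := k + 2)
          (s := k - 2) (t := k + 1) (by ring) rfl rfl rfl rfl
        have hi2 := h.even' (m := i) (p := k + i - (k - i)) (q := i - 1) (r := i + 2)
          (s := i - 2) (t := i + 1) (by ring) rfl rfl rfl rfl
        have e1 : k - i + 1 = k - i + 1 := rfl
        have e2 : k - i - 1 = k - i - 1 := rfl
        have e3 : k + i - 1 = k + i - 1 := rfl
        simp only [EDSRel]
        have key : W 2 ^ 2 * (W (k + i + (k - i)) * W (k + i - (k - i))) =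
            W 2 ^ 2 * (W (k + i + 1) * W (k + i - 1) * W (k - i) ^ 2 -
              W (k - i + 1) * W (k - i - 1) * W (k + i) ^ 2) := by
          linear_combination (W (k + i - (k - i)) * W 2) * hk2
            + (W (k - 1) ^ 2 * W k * W (k + 2) - W (k - 2) * W k * W (k + 1) ^ 2) * hi2
            - (W 2 * W (k + i - 1) * W (k - i)) * hA
            - (W (k + 2) * W (k - 1) * W (i + 1) * W i
                - W (k + 1) * W k * W (i + 2) * W (i - 1)) * hB
            + (W 2 * W (k + i) * W (k - i - 1)) * hC
            + (W (k + 2) * W (k - 1) * W i * W (i - 1)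
                - W (k + 1) * W k * W (i + 1) * W (i - 2)) * hD
        exact mul_left_cancel₀ (pow_ne_zero 2 h2) key
      · -- m - n = 2 i + 1, odd case, uses EDSRel
        obtain ⟨k, hk⟩ : ∃ k, k = n + i := ⟨_, rfl⟩
        have hm : m = k + i + 1 := by omega
        have hn' : n = k - i := by omega
        subst hm hn'
        have hA := (ihE (k + 1) (i + 1) (by omega) (by omega) (by omega)).cast
          (p := k + i + 2) (q := k - i) (r := k + 2) (s := k) (t := i + 2) (u := i)
          (by ring) (by ring) (by ring) (by ring) (by ring) (by ring)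
        have hB := (ihE k i (by omega) (by omega) (by omega)).cast
          (p := k + i) (q := k - i) (r := k + 1) (s := k - 1) (t := i + 1) (u := i - 1)
          rfl rfl rfl rfl rfl rfl
        have hC := (ihE (k + 1) i (by omega) (by omega) (by omega)).cast
          (p := k + i + 1) (q := k - i + 1) (r := k + 2) (s := k) (t := i + 1) (u := i - 1)
          (by ring) (by ring) (by ring) (by ring) (by ring) (by ring)
        have hD := (ihE k (i + 1) (by omega) (by omega) (by omega)).cast
          (p := k + i + 1) (q := k - i - 1) (r := k + 1) (s := k - 1) (t := i + 2) (u := i)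
          (by ring) (by ring) (by ring) (by ring) (by ring) (by ring)
        have hk2 := h.odd' (m := k) (p := k + i + 1 + (k - i)) (q := k + 2) (r := k - 1)
          (s := k + 1) (by ring) rfl rfl rfl
        have hi2 := h.odd' (m := i) (p := k + i + 1 - (k - i)) (q := i + 2) (r := i - 1)
          (s := i + 1) (by ring) rfl rfl rfl
        have e1 : k + i + 1 + 1 = k + i + 2 := by ring
        have e2 : k + i + 1 - 1 = k + i := by ring
        simp only [EDSRel, e1, e2]
        linear_combination (W (k + i + 1 - (k - i))) * hk2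
          + (W (k + 2) * W k ^ 3 - W (k - 1) * W (k + 1) ^ 3) * hi2
          - (W (k + i) * W (k - i)) * hA
          - (W (k + 2) * W k * W (i + 1) ^ 2 - W (i + 2) * W i * W (k + 1) ^ 2) * hB
          + (W (k + i + 1) * W (k - i - 1)) * hC
          + (W (k + 2) * W k * W i ^ 2 - W (i + 1) * W (i - 1) * W (k + 1) ^ 2) * hD
    · intro a b hb hba hs
      by_cases hlt : a + b + 1 ≤ N
      · exact ihE' a b hb hba hlt
      have hsum : a + b = N := by push_cast at hs; omega
      rcases eq_or_ne b 0 with rfl | hb0
      · exact h.rel'_zero a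
      rcases eq_or_ne b 1 with rfl | hb1
      · exact h.rel'_one a
      rcases eq_or_ne a b with rfl | hab0
      · exact h.rel'_self a
      rcases eq_or_ne a (b + 1) with rfl | hab1
      · exact h.rel'_succ b
      rcases Int.even_or_odd' (a - b) with ⟨j, hj | hj⟩
      · -- a - b = 2 j, uses EDSRel
        obtain ⟨c, hc⟩ : ∃ c, c = b + j := ⟨_, rfl⟩
        have ha : a = c + j := by omega
        have hb' : b = c - j := by omega
        subst ha hb'
        have hA := (ihE (c + 1) (j + 1) (by omega) (by omega) (by omega)).cast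
          (p := c + j + 2) (q := c - j) (r := c + 2) (s := c) (t := j + 2) (u := j)
          (by ring) (by ring) (by ring) (by ring) (by ring) (by ring)
        have hB := (ihE c (j - 1) (by omega) (by omega) (by omega)).cast
          (p := c + j - 1) (q := c - j + 1) (r := c + 1) (s := c - 1) (t := j) (u := j - 2)
          (by ring) (by ring) (by ring) (by ring) (by ring) (by ring)
        have hC := (ihE c (j + 1) (by omega) (by omega) (by omega)).cast
          (p := c + j + 1) (q := c - j - 1) (r := c + 1) (s := c - 1) (t := j + 2) (u := j)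
          (by ring) (by ring) (by ring) (by ring) (by ring) (by ring)
        have hD := (ihE (c + 1) (j - 1) (by omega) (by omega) (by omega)).cast
          (p := c + j) (q := c - j + 2) (r := c + 2) (s := c) (t := j) (u := j - 2)
          (by ring) (by ring) (by ring) (by ring) (by ring) (by ring)
        have hc2 := h.odd' (m := c) (p := c + j + (c - j) + 1) (q := c + 2) (r := c - 1)
          (s := c + 1) (by ring) rfl rfl rfl
        have hj2 := h.even' (m := j) (p := c + j - (c - j)) (q := j - 1) (r := j + 2)
          (s := j - 2) (t := j + 1) (by ring) rfl rfl rfl rfl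
        have e1 : c - j + 1 = c - j + 1 := rfl
        have e2 : c - j - 1 = c - j - 1 := rfl
        simp only [EDSRel']
        linear_combination (W 2 * W (c + j - (c - j))) * hc2
          + (W (c + 2) * W c ^ 3 - W (c - 1) * W (c + 1) ^ 3) * hj2
          - (W (c + j - 1) * W (c - j + 1)) * hA
          - (W (c + 2) * W c * W (j + 1) ^ 2 - W (j + 2) * W j * W (c + 1) ^ 2) * hB
          + (W (c + j) * W (c - j + 2)) * hC
          + (W (c + 1) * W (c - 1) * W (j + 1) ^ 2 - W (j + 2) * W j * W c ^ 2) * hD
      · -- a - b = 2 j + 1, uses EDSRel'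
        obtain ⟨c, hc⟩ : ∃ c, c = b + j := ⟨_, rfl⟩
        have ha : a = c + j + 1 := by omega
        have hb' : b = c - j := by omega
        subst ha hb'
        have hA := (ihE' (c + 1) (j + 1) (by omega) (by omega) (by omega)).cast
          (p := c + j + 3) (q := c - j) (r := c + 3) (s := c) (t := j + 2) (u := c + 2)
          (v := j + 3) (w := j)
          (by ring) (by ring) (by ring) (by ring) (by ring) (by ring) (by ring) (by ring)
        have hB := (ihE' c (j - 1) (by omega) (by omega) (by omega)).cast
          (p := c + j) (q := c - j + 1) (r := c + 2) (s := c - 1) (t := j) (u := c + 1)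
          (v := j + 1) (w := j - 2)
          (by ring) (by ring) (by ring) (by ring) (by ring) (by ring) (by ring) (by ring)
        have hC := (ihE' c (j + 1) (by omega) (by omega) (by omega)).cast
          (p := c + j + 2) (q := c - j - 1) (r := c + 2) (s := c - 1) (t := j + 2) (u := c + 1)
          (v := j + 3) (w := j)
          (by ring) (by ring) (by ring) (by ring) (by ring) (by ring) (by ring) (by ring)
        have hD := (ihE' (c + 1) (j - 1) (by omega) (by omega) (by omega)).cast
          (p := c + j + 1) (q := c - j + 2) (r := c + 3) (s := c) (t := j) (u := c + 2)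
          (v := j + 1) (w := j - 2)
          (by ring) (by ring) (by ring) (by ring) (by ring) (by ring) (by ring) (by ring)
        have hc2 := h.even' (m := c + 1) (p := c + j + 1 + (c - j) + 1) (q := c) (r := c + 3)
          (s := c - 1) (t := c + 2) (by ring) (by ring) (by ring) (by ring) (by ring)
        have hj2 := (ihE' (j + 1) (j - 1) (by omega) (by omega) (by omega)).cast
          (p := c + j + 1 - (c - j)) (q := 2) (r := j + 3) (s := j) (t := j) (u := j + 2)
          (v := j + 1) (w := j - 2)
          (by ring) (by ring) (by ring) (by ring) (by ring) (by ring) (by ring) (by ring)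
        have e1 : c + j + 1 + 2 = c + j + 3 := by ring
        have e2 : c + j + 1 - 1 = c + j := by ring
        have e3 : c + j + 1 + 1 = c + j + 2 := by ring
        simp only [EDSRel', e1, e2, e3]
        have key : W 2 ^ 2 * (W 2 * W (c + j + 1 + (c - j) + 1) * W (c + j + 1 - (c - j))) =
            W 2 ^ 2 * (W (c + j + 3) * W (c + j) * W (c - j + 1) * W (c - j) -
              W (c + j + 2) * W (c + j + 1) * W (c - j + 2) * W (c - j - 1)) := by
          linear_combination (W 2 * W (c + j + 1 - (c - j)) * W 2) * hc2
            + (W c ^ 2 * W (c + 1) * W (c + 3) - W (c - 1) * W (c + 1) * W (c + 2) ^ 2) * hj2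
            - (W 2 * W (c + j) * W (c - j + 1)) * hA
            - (W (c + 3) * W c * W (j + 2) * W (j + 1)
                - W (c + 2) * W (c + 1) * W (j + 3) * W j) * hB
            + (W 2 * W (c + j + 1) * W (c - j + 2)) * hC
            + (W (c + 2) * W (c - 1) * W (j + 2) * W (j + 1)
                - W (c + 1) * W c * W (j + 3) * W j) * hD
        exact mul_left_cancel₀ (pow_ne_zero 2 h2) key


lemma IsDoubling.rel_symm (h : IsDoubling W) {m n : ℤ} (hr : EDSRel W m n) : EDSRel W n m := by
  have e1 : n - m = -(m - n) := by ring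
  have e2 : n + m = m + n := by ring
  simp only [EDSRel, e1, e2, h.neg] at hr ⊢
  linear_combination -hr

lemma IsDoubling.rel_neg_left (h : IsDoubling W) {m n : ℤ} (hr : EDSRel W m n) :
    EDSRel W (-m) n := by
  have e1 : -m + n = -(m - n) := by ring
  have e2 : -m - n = -(m + n) := by ring
  have e3 : -m + 1 = -(m - 1) := by ring
  have e4 : -m - 1 = -(m + 1) := by ring
  simp only [EDSRel, e1, e2, e3, e4, h.neg] at hr ⊢
  linear_combination hr

lemma IsDoubling.rel_neg_right (h : IsDoubling W) {m n : ℤ} (hr : EDSRel W m n) :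
    EDSRel W m (-n) := by
  have e1 : m + -n = m - n := by ring
  have e2 : m - -n = m + n := by ring
  have e3 : -n + 1 = -(n - 1) := by ring
  have e4 : -n - 1 = -(n + 1) := by ring
  simp only [EDSRel, e1, e2, e3, e4, h.neg] at hr ⊢
  linear_combination hr

/-- **Ward's theorem**, abstract form over a domain: the doubling recurrences imply the full
elliptic sequence relation. -/
theorem IsDoubling.rel [IsDomain R] (h : IsDoubling W) (h2 : W 2 ≠ 0) (m n : ℤ) :
    EDSRel W m n := by
  have nonneg : ∀ m n : ℤ, 0 ≤ m → 0 ≤ n → EDSRel W m n := by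
    intro m n hm hn
    rcases le_total n m with hnm | hmn
    · exact (h.key h2 (m + n).toNat).1 m n hn hnm (by omega)
    · exact h.rel_symm ((h.key h2 (m + n).toNat).1 n m hm hmn (by omega))
  rcases le_total 0 m with hm | hm <;> rcases le_total 0 n with hn | hn
  · exact nonneg m n hm hn
  · have := h.rel_neg_right (nonneg m (-n) hm (by omega))
    rwa [neg_neg] at this
  · have := h.rel_neg_left (nonneg (-m) n (by omega) hn)
    rwa [neg_neg] at this
  · have := h.rel_neg_left (h.rel_neg_right (nonneg (-m) (-n) (by omega) (by omega)))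
    rwa [neg_neg, neg_neg] at this

end Abstract

section NormEDS

open MvPolynomial

variable {R : Type*} [CommRing R]

lemma isDoubling_normEDS (b c d : R) : IsDoubling (normEDS b c d) where
  zero := normEDS_zero b c d
  one := normEDS_one b c d
  neg := normEDS_neg b c d
  odd := normEDS_odd b c d
  even m := by rw [normEDS_two]; exact normEDS_even b c d m

/-- **Ward's theorem** for Mathlib's `normEDS`, over any commutative ring. -/
theorem normEDS_rel (b c d : R) (m n : ℤ) :
    normEDS b c d (m + n) * normEDS b c d (m - n) =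
      normEDS b c d (m + 1) * normEDS b c d (m - 1) * normEDS b c d n ^ 2 -
        normEDS b c d (n + 1) * normEDS b c d (n - 1) * normEDS b c d m ^ 2 := by
  -- universal case
  let U := MvPolynomial (Fin 3) ℤ
  have hU : EDSRel (normEDS (X 0 : U) (X 1) (X 2)) m n := by
    refine (isDoubling_normEDS (X 0 : U) (X 1) (X 2)).rel ?_ m n
    rw [normEDS_two]
    exact X_ne_zero 0
  -- specialise
  let f : U →+* R := (MvPolynomial.aeval ![b, c, d] : U →ₐ[ℤ] R).toRingHom
  have hf0 : f (X 0) = b := by
    change (MvPolynomial.aeval ![b, c, d] : U →ₐ[ℤ] R) (X 0) = b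
    rw [aeval_X]; rfl
  have hf1 : f (X 1) = c := by
    change (MvPolynomial.aeval ![b, c, d] : U →ₐ[ℤ] R) (X 1) = c
    rw [aeval_X]; rfl
  have hf2 : f (X 2) = d := by
    change (MvPolynomial.aeval ![b, c, d] : U →ₐ[ℤ] R) (X 2) = d
    rw [aeval_X]; rfl
  have key : ∀ k : ℤ, f (normEDS (X 0 : U) (X 1) (X 2) k) = normEDS b c d k := by
    intro k
    rw [map_normEDS, hf0, hf1, hf2]
  have := congrArg f hU
  simp only [map_mul, map_sub, map_pow, key] at this
  exact this

/-- The Somos-4 form: the case `n = 2` of Ward's theorem. -/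
theorem normEDS_somos4 (b c d : R) (m : ℤ) :
    normEDS b c d (m + 2) * normEDS b c d (m - 2) =
      normEDS b c d (m + 1) * normEDS b c d (m - 1) * b ^ 2 - c * normEDS b c d m ^ 2 := by
  have := normEDS_rel b c d m 2
  have e1 : (2 : ℤ) + 1 = 3 := by norm_num
  have e2 : (2 : ℤ) - 1 = 1 := by norm_num
  simpa only [e1, e2, normEDS_two, normEDS_three, normEDS_one, one_mul, mul_one] using this

end NormEDS

end Fermat.Agent.H72
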