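import Fermat.Agent.H72.Ward
import Fermat.Agent.H70.AddSub
import Mathlib.AlgebraicGeometry.EllipticCurve.DivisionPolynomial.Basic

/-!
# Division polynomials and torsion points (pointwise theory)

For a nonsingular point `P = (x, y)` of a Weierstrass curve over a field we study the sequence
`hseq n = ψ_n(P)` and prove: `hseq n ≠ 0` as long as no multiple `k • P`, `1 ≤ k ≤ n`, vanishes
(Step A), the first zero is at the order of `P`, and zeros occur only at multiples of the order
(Step B).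
-/

set_option autoImplicit false
set_option linter.unusedSectionVars false

namespace Fermat.Agent.H72

open WeierstrassCurve WeierstrassCurve.Affine Fermat.Agent.H38 Fermat.Agent.H70

variable {F : Type*} [Field F] [DecidableEq F] (W : WeierstrassCurve F)

/-- The division sequence `n ↦ ψ_n(x, y)` at a point `(x, y)`. -/
noncomputable def hseq (x y : F) (n : ℤ) : F :=
  normEDS (W.ψ₂.evalEval x y) (W.Ψ₃.eval x) (W.preΨ₄.eval x) n

lemma hseq_zero (x y : F) : hseq W x y 0 = 0 := normEDS_zero _ _ _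
lemma hseq_one (x y : F) : hseq W x y 1 = 1 := normEDS_one _ _ _
lemma hseq_two (x y : F) : hseq W x y 2 = W.ψ₂.evalEval x y := normEDS_two _ _ _
lemma hseq_three (x y : F) : hseq W x y 3 = W.Ψ₃.eval x := normEDS_three _ _ _
lemma hseq_four (x y : F) : hseq W x y 4 = W.preΨ₄.eval x * W.ψ₂.evalEval x y :=
  normEDS_four _ _ _
lemma hseq_neg (x y : F) (n : ℤ) : hseq W x y (-n) = -hseq W x y n := normEDS_neg _ _ _ n

lemma hseq_rel (x y : F) (m n : ℤ) :
    hseq W x y (m + n) * hseq W x y (m - n) =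
      hseq W x y (m + 1) * hseq W x y (m - 1) * hseq W x y n ^ 2 -
        hseq W x y (n + 1) * hseq W x y (n - 1) * hseq W x y m ^ 2 :=
  normEDS_rel _ _ _ m n

lemma hseq_somos4 (x y : F) (m : ℤ) :
    hseq W x y (m + 2) * hseq W x y (m - 2) =
      hseq W x y (m + 1) * hseq W x y (m - 1) * W.ψ₂.evalEval x y ^ 2 -
        W.Ψ₃.eval x * hseq W x y m ^ 2 :=
  normEDS_somos4 _ _ _ m

/-- `hseq n` is the evaluation of Mathlib's `ψ_n`. -/
lemma hseq_eq_evalEval (x y : F) (n : ℤ) : hseq W x y n = (W.ψ n).evalEval x y := by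
  have := map_normEDS (Polynomial.evalEvalRingHom x y) W.ψ₂ (Polynomial.C W.Ψ₃)
    (Polynomial.C W.preΨ₄) n
  simp only [Polynomial.coe_evalEvalRingHom, Polynomial.evalEval_C] at this
  rw [hseq, WeierstrassCurve.ψ, this]

/-- For odd `n`, `hseq n` is the evaluation of the univariate `preΨ n`. -/
lemma hseq_eq_eval_preΨ {x y : F} (h : W.toAffine.Equation x y) {n : ℤ} (hn : ¬ Even n) :
    hseq W x y n = (W.preΨ n).eval x := by
  have h1 := map_preNormEDS (Polynomial.evalRingHom x) (W.Ψ₂Sq ^ 2) W.Ψ₃ W.preΨ₄ n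
  simp only [Polynomial.coe_evalRingHom, Polynomial.eval_pow] at h1
  rw [hseq, normEDS, if_neg hn, mul_one, WeierstrassCurve.preΨ, h1,
    ← evalEval_ψ₂_sq W h]
  congr 1
  ring


section StepA

variable {W}

lemma xc_ne_xc_succ_nsmul {P : W.toAffine.Point} (hP : P ≠ 0) (m : ℕ) (hm : m • P ≠ 0)
    (hm1 : (m + 1) • P ≠ 0) (hm2 : (m + 2) • P ≠ 0) : xc W P ≠ xc W ((m + 1) • P) := by
  intro hx
  rcases eq_or_eq_neg_of_xc_eq W hP hm1 hx with h' | h'
  · apply hm
    have e : (m + 1) • P = m • P + P := succ_nsmul P m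
    rw [e] at h'
    have : m • P + P = 0 + P := by rw [zero_add]; exact h'.symm
    exact add_right_cancel this
  · apply hm2
    have e : (m + 2) • P = (m + 1) • P + P := succ_nsmul P (m + 1)
    rw [e]
    nth_rewrite 2 [h']
    exact add_neg_cancel _

variable {x y : F} (h : W.toAffine.Nonsingular x y)

/-- **Step A**: as long as the multiples `k • P`, `1 ≤ k ≤ n`, are nonzero, the division sequence
does not vanish and computes the `x`-coordinates of the multiples. -/
theorem stepA (n : ℕ) (hn : ∀ k : ℕ, 1 ≤ k → k ≤ n → k • (Point.some x y h) ≠ 0) :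
    ∀ k : ℕ, 1 ≤ k → k ≤ n → hseq W x y k ≠ 0 ∧
      (x - xc W (k • Point.some x y h)) * hseq W x y k ^ 2 =
        hseq W x y ((k : ℤ) - 1) * hseq W x y ((k : ℤ) + 1) := by
  set P : W.toAffine.Point := Point.some x y h with hPdef
  have hP : P ≠ 0 := Point.some_ne_zero h
  have hxP : xc W P = x := rfl
  have hsq : W.ψ₂.evalEval x y ^ 2 = W.Ψ₂Sq.eval x := evalEval_ψ₂_sq W h.1
  intro k
  induction k using Nat.strong_induction_on with
  | _ k ih =>
    intro hk1 hkn
    match k, ih, hk1, hkn with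
    | 1, _, _, _ =>
      refine ⟨by simp [hseq_one], ?_⟩
      simp [hseq_one, hseq_zero, hxP]
    | 2, _, _, hkn =>
      have h2 : 2 • P ≠ 0 := hn 2 (by norm_num) hkn
      have hψ : W.ψ₂.evalEval x y ≠ 0 := by
        intro h0
        apply h2
        rw [two_nsmul_eq_zero_iff W hP, dblDen_eq_eval, hxP, ← hsq, h0]
        ring
      refine ⟨by simpa [hseq_two] using hψ, ?_⟩
      have := xc_sub_xc_two_nsmul W hP h2
      rw [hxP, ← hsq] at this
      have e1 : ((2 : ℕ) : ℤ) - 1 = 1 := by norm_num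
      have e2 : ((2 : ℕ) : ℤ) + 1 = 3 := by norm_num
      have e3 : ((2 : ℕ) : ℤ) = 2 := by norm_num
      rw [e1, e2, e3, hseq_one, hseq_two, hseq_three, one_mul]
      exact this
    | 3, ih, _, hkn =>
      have h2 : 2 • P ≠ 0 := hn 2 (by norm_num) (by omega)
      have h3 : 3 • P ≠ 0 := hn 3 (by norm_num) hkn
      obtain ⟨h2ne, h2x⟩ := ih 2 (by norm_num) (by norm_num) (by omega)
      have e1 : ((2 : ℕ) : ℤ) - 1 = 1 := by norm_num
      have e2 : ((2 : ℕ) : ℤ) + 1 = 3 := by norm_num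
      have e3 : ((2 : ℕ) : ℤ) = 2 := by norm_num
      rw [e1, e2, e3, hseq_one, one_mul] at h2x
      rw [e3] at h2ne
      have hne : xc W P ≠ xc W (2 • P) := xc_ne_xc_two_nsmul W hP h2 h3
      have h3ne : hseq W x y 3 ≠ 0 := by
        rw [← h2x]
        exact mul_ne_zero (sub_ne_zero.mpr (by rwa [hxP] at hne)) (pow_ne_zero 2 h2ne)
      have f1 : ((3 : ℕ) : ℤ) - 1 = 2 := by norm_num
      have f2 : ((3 : ℕ) : ℤ) + 1 = 4 := by norm_num
      have f3 : ((3 : ℕ) : ℤ) = 3 := by norm_num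
      rw [f1, f2, f3]
      refine ⟨h3ne, ?_⟩
      have := xc_sub_xc_three_nsmul W hP h3
      rw [hxP, ← hsq] at this
      rw [hseq_two, hseq_three, hseq_four]
      linear_combination this
    | j + 4, ih, _, hkn =>
      have hm1 : (j + 1) • P ≠ 0 := hn _ (by omega) (by omega)
      have hm2 : (j + 2) • P ≠ 0 := hn _ (by omega) (by omega)
      have hm3 : (j + 3) • P ≠ 0 := hn _ (by omega) (by omega)
      have hm4 : (j + 4) • P ≠ 0 := hn _ (by omega) (by omega)
      obtain ⟨a1ne, -⟩ := ih (j + 1) (by omega) (by omega) (by omega)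
      obtain ⟨a2ne, a2x⟩ := ih (j + 2) (by omega) (by omega) (by omega)
      obtain ⟨a3ne, a3x⟩ := ih (j + 3) (by omega) (by omega) (by omega)
      have c1 : ((j + 1 : ℕ) : ℤ) = (j : ℤ) + 1 := by push_cast; ring
      have c2 : ((j + 2 : ℕ) : ℤ) = (j : ℤ) + 2 := by push_cast; ring
      have c3 : ((j + 3 : ℕ) : ℤ) = (j : ℤ) + 3 := by push_cast; ring
      have c4 : ((j + 4 : ℕ) : ℤ) = (j : ℤ) + 4 := by push_cast; ring
      have d21 : (j : ℤ) + 2 - 1 = j + 1 := by ring
      have d22 : (j : ℤ) + 2 + 1 = j + 3 := by ring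
      have d31 : (j : ℤ) + 3 - 1 = j + 2 := by ring
      have d32 : (j : ℤ) + 3 + 1 = j + 4 := by ring
      have d41 : (j : ℤ) + 4 - 1 = j + 3 := by ring
      have d42 : (j : ℤ) + 4 + 1 = j + 5 := by ring
      rw [c1] at a1ne
      rw [c2] at a2ne
      rw [c3] at a3ne
      rw [c2, d21, d22] at a2x
      rw [c3, d31, d32] at a3x
      rw [c4, d41, d42]
      -- nonvanishing of h_{j+4}
      have hne3 : xc W P ≠ xc W ((j + 3) • P) :=
        xc_ne_xc_succ_nsmul hP (j + 2) hm2 hm3 hm4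
      have a4ne : hseq W x y ((j : ℤ) + 4) ≠ 0 := by
        intro h0
        have : (x - xc W ((j + 3) • P)) * hseq W x y ((j : ℤ) + 3) ^ 2 = 0 := by
          rw [a3x, h0, mul_zero]
        rcases mul_eq_zero.mp this with h' | h'
        · exact hne3 (by rw [hxP]; exact sub_eq_zero.mp h')
        · exact a3ne (pow_eq_zero_iff (by norm_num) |>.mp h')
      refine ⟨a4ne, ?_⟩
      -- the product relation at Q = (j+3) • P
      have hQ := xc_sub_mul_xc_sub W hP hm3 hne3
      have eQm : (j + 3) • P - P = (j + 2) • P := by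
        have e : (j + 3) • P = (j + 2) • P + P := succ_nsmul P (j + 2)
        rw [e, add_sub_cancel_right]
      have eQp : (j + 3) • P + P = (j + 4) • P := (succ_nsmul P (j + 3)).symm
      rw [eQm, eQp, hxP, dblDen_eq_eval, psi3_eq_eval, ← hsq] at hQ
      have hS := hseq_somos4 W x y ((j : ℤ) + 3)
      have s1 : (j : ℤ) + 3 + 2 = j + 5 := by ring
      have s2 : (j : ℤ) + 3 - 2 = j + 1 := by ring
      rw [s1, s2, d31, d32] at hS
      -- cancel the nonzero factor
      have hfac : hseq W x y ((j : ℤ) + 1) * hseq W x y ((j : ℤ) + 3) *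
          hseq W x y ((j : ℤ) + 2) ^ 2 * hseq W x y ((j : ℤ) + 4) ^ 2 ≠ 0 :=
        mul_ne_zero (mul_ne_zero (mul_ne_zero a1ne a3ne) (pow_ne_zero 2 a2ne))
          (pow_ne_zero 2 a4ne)
      apply mul_left_cancel₀ hfac
      linear_combination
        (hseq W x y ((j : ℤ) + 2) ^ 2 * hseq W x y ((j : ℤ) + 3) ^ 4 *
          hseq W x y ((j : ℤ) + 4) ^ 2) * hQ
        - (hseq W x y ((j : ℤ) + 2) ^ 2 * hseq W x y ((j : ℤ) + 3) ^ 2 *
          hseq W x y ((j : ℤ) + 4) ^ 2) * hS
        - ((x - xc W ((j + 4) • P)) * (x - xc W ((j + 3) • P)) ^ 2 *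
            hseq W x y ((j : ℤ) + 3) ^ 4 * hseq W x y ((j : ℤ) + 4) ^ 2) * a2x
        - ((x - xc W ((j + 4) • P)) * hseq W x y ((j : ℤ) + 4) ^ 2 *
            hseq W x y ((j : ℤ) + 1) * hseq W x y ((j : ℤ) + 3) *
            ((x - xc W ((j + 3) • P)) * hseq W x y ((j : ℤ) + 3) ^ 2 +
              hseq W x y ((j : ℤ) + 2) * hseq W x y ((j : ℤ) + 4))) * a3x
        + (W.ψ₂.evalEval x y ^ 2 * hseq W x y ((j : ℤ) + 2) ^ 2 *
            hseq W x y ((j : ℤ) + 3) ^ 2 * hseq W x y ((j : ℤ) + 4) ^ 2) * a3x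


/-- The division sequence vanishes at the first index `n + 1` with `(n + 1) • P = 0`. -/
theorem hseq_first_zero (n : ℕ) (hn : ∀ k : ℕ, 1 ≤ k → k ≤ n → k • (Point.some x y h) ≠ 0)
    (hz : (n + 1) • (Point.some x y h) = 0) : hseq W x y ((n : ℤ) + 1) = 0 := by
  set P : W.toAffine.Point := Point.some x y h with hPdef
  have hP : P ≠ 0 := Point.some_ne_zero h
  have hxP : xc W P = x := rfl
  have hsq : W.ψ₂.evalEval x y ^ 2 = W.Ψ₂Sq.eval x := evalEval_ψ₂_sq W h.1
  match n, hn, hz with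
  | 0, _, hz =>
    exfalso
    have hz' : P = 0 := by
      have : (0 + 1) • P = P := by rw [zero_add, one_nsmul]
      rw [← this]; exact hz
    exact hP hz'
  | 1, _, hz =>
    have h2 : 2 • P = 0 := hz
    rw [two_nsmul_eq_zero_iff W hP, dblDen_eq_eval, hxP, ← hsq] at h2
    have e : ((1 : ℕ) : ℤ) + 1 = 2 := by norm_num
    rw [e, hseq_two]
    exact pow_eq_zero_iff (by norm_num) |>.mp h2
  | m + 2, hn, hz =>
    obtain ⟨-, hx⟩ := stepA h (m + 2) hn (m + 2) (by omega) le_rfl
    obtain ⟨hne, -⟩ := stepA h (m + 2) hn (m + 1) (by omega) (by omega)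
    have e1 : ((m + 2 : ℕ) : ℤ) - 1 = ((m + 1 : ℕ) : ℤ) := by push_cast; ring
    rw [e1] at hx
    have hneg : (m + 2) • P = -P := by
      have e : (m + 2 + 1) • P = (m + 2) • P + P := succ_nsmul P (m + 2)
      rw [e] at hz
      exact eq_neg_of_add_eq_zero_left hz
    have hxc : xc W ((m + 2) • P) = x := by rw [hneg, xc_neg, hxP]
    rw [hxc, sub_self, zero_mul] at hx
    rcases mul_eq_zero.mp hx.symm with h' | h'
    · exact absurd h' hne
    · exact h'

end StepA

section StepB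

variable {W}
variable {x y : F} (h : W.toAffine.Nonsingular x y)

/-- **Step B**: if `P` has exact order `N ≥ 2`, the division sequence vanishes at no index
prime to... more precisely at no index which is not a multiple of `N`. -/
theorem stepB (hΔ : W.Δ ≠ 0) (N : ℕ) (hN2 : 2 ≤ N)
    (hord : ∀ k : ℕ, 1 ≤ k → k < N → k • (Point.some x y h) ≠ 0)
    (hN : N • (Point.some x y h) = 0) :
    ∀ n : ℕ, ¬ N ∣ n → hseq W x y n ≠ 0 := by
  set P : W.toAffine.Point := Point.some x y h with hPdef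
  have hP : P ≠ 0 := Point.some_ne_zero h
  have hxP : xc W P = x := rfl
  have hsq : W.ψ₂.evalEval x y ^ 2 = W.Ψ₂Sq.eval x := evalEval_ψ₂_sq W h.1
  obtain ⟨M, rfl⟩ : ∃ M, N = M + 1 := ⟨N - 1, by omega⟩
  have hord' : ∀ k : ℕ, 1 ≤ k → k ≤ M → k • P ≠ 0 := fun k h1 h2 => hord k h1 (by omega)
  have hA := stepA h M hord'
  have hN0 : hseq W x y ((M : ℤ) + 1) = 0 := hseq_first_zero h M hord' hN
  -- h_{N-1} ≠ 0
  have hNm : hseq W x y (M : ℤ) ≠ 0 := (hA M (by omega) le_rfl).1
  -- h_{N+1} ≠ 0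
  have hNp : hseq W x y ((M : ℤ) + 2) ≠ 0 := by
    match M, hN2, hord', hA, hN0, hNm, hN with
    | 1, _, _, _, _, _, hN =>
      -- N = 2
      have h2 : 2 • P = 0 := hN
      rw [two_nsmul_eq_zero_iff W hP, hxP] at h2
      have := dblNum_ne_zero_of_dblDen_eq_zero W hΔ h2
      have e : ((1 : ℕ) : ℤ) + 2 = 3 := by norm_num
      rw [e, hseq_three, ← psi3_eq_eval, psi3_eq, h2, mul_zero, zero_sub]
      exact neg_ne_zero.mpr this
    | 2, _, hord', _, _, _, hN =>
      -- N = 3
      have h2 : 2 • P ≠ 0 := hord' 2 (by norm_num) le_rfl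
      have hψ : W.ψ₂.evalEval x y ≠ 0 := by
        intro h0
        apply h2
        rw [two_nsmul_eq_zero_iff W hP, dblDen_eq_eval, hxP, ← hsq, h0]
        ring
      obtain ⟨x', y', h', e2⟩ := exists_some_of_ne_zero W h2
      have h4 : 2 • (2 • P) ≠ 0 := by
        rw [← mul_nsmul, show 2 * 2 = 3 + 1 by norm_num, succ_nsmul]
        have : (3 : ℕ) • P = 0 := hN
        rw [this, zero_add]
        exact hP
      have hψ' : W.ψ₂.evalEval x' y' ≠ 0 := by
        intro h0
        apply h4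
        rw [e2]
        have hsq' : W.ψ₂.evalEval x' y' ^ 2 = W.Ψ₂Sq.eval x' := evalEval_ψ₂_sq W h'.1
        rw [two_nsmul_eq_zero_iff W (Point.some_ne_zero h'), dblDen_eq_eval, xc_some, ← hsq', h0]
        ring
      have hc := preΨ₄_eval_eq_of_two_nsmul W (h := h) (h' := h') e2
      have e : ((2 : ℕ) : ℤ) + 2 = 4 := by norm_num
      rw [e, hseq_four, hc]
      exact mul_ne_zero (mul_ne_zero (pow_ne_zero 3 hψ) hψ') hψ
    | m + 3, _, _, hA, hN0, hNm, _ =>
      -- N ≥ 4
      have h3ne : hseq W x y 3 ≠ 0 := by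
        have := (hA 3 (by norm_num) (by omega)).1
        simpa using this
      have hS := hseq_somos4 W x y ((m + 3 : ℕ) : ℤ)
      have e1 : ((m + 3 : ℕ) : ℤ) - 2 = ((m + 1 : ℕ) : ℤ) := by push_cast; ring
      have e2 : ((m + 3 : ℕ) : ℤ) - 1 = ((m + 2 : ℕ) : ℤ) := by push_cast; ring
      rw [e1, e2, hN0, zero_mul, zero_mul, zero_sub, ← hseq_three] at hS
      intro h0
      rw [h0, zero_mul] at hS
      have : hseq W x y 3 * hseq W x y ((m + 3 : ℕ) : ℤ) ^ 2 = 0 := by
        rw [← neg_eq_zero]; exact hS.symm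
      rcases mul_eq_zero.mp this with h' | h'
      · exact h3ne h'
      · exact hNm (pow_eq_zero_iff (by norm_num) |>.mp h')
  intro n
  induction n using Nat.strong_induction_on with
  | _ n ih =>
    intro hdvd
    rcases lt_or_ge n (M + 1) with hlt | hge
    · have hn1 : 1 ≤ n := by
        rcases Nat.eq_zero_or_pos n with rfl | hpos
        · exact absurd (dvd_zero _) hdvd
        · exact hpos
      exact (hA n hn1 (by omega)).1
    · have hne : n ≠ M + 1 := fun e => hdvd (e ▸ dvd_rfl)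
      obtain ⟨r, rfl⟩ : ∃ r, n = r + (M + 1) := ⟨n - (M + 1), by omega⟩
      have hr : ¬ (M + 1) ∣ r := fun hd => hdvd (Dvd.dvd.add hd dvd_rfl)
      have hrne := ih r (by omega) hr
      have hR := hseq_rel W x y (r : ℤ) ((M : ℤ) + 1)
      have e1 : (M : ℤ) + 1 + 1 = M + 2 := by ring
      have e2 : (M : ℤ) + 1 - 1 = M := by ring
      have e3 : (r : ℤ) + ((M : ℤ) + 1) = ((r + (M + 1) : ℕ) : ℤ) := by push_cast; ring
      rw [e1, e2, hN0, e3] at hR
      intro h0
      rw [h0, zero_mul] at hR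
      have : hseq W x y ((M : ℤ) + 2) * hseq W x y (M : ℤ) * hseq W x y (r : ℤ) ^ 2 = 0 := by
        linear_combination hR
      rcases mul_eq_zero.mp this with h' | h'
      · rcases mul_eq_zero.mp h' with h'' | h''
        · exact hNp h''
        · exact hNm h''
      · exact hrne (pow_eq_zero_iff (by norm_num) |>.mp h')


/-- **Division polynomial theorem at a prime**: for a nonsingular point `P = (x, y)` on a
Weierstrass curve with `Δ ≠ 0` over a field, `ψ_p(P) = 0 ↔ p • P = 0`. -/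
theorem hseq_prime_eq_zero_iff (hΔ : W.Δ ≠ 0) {p : ℕ} (hp : p.Prime) :
    hseq W x y p = 0 ↔ p • (Point.some x y h) = 0 := by
  set P : W.toAffine.Point := Point.some x y h with hPdef
  have hP : P ≠ 0 := Point.some_ne_zero h
  constructor
  · intro h0
    by_contra hpP
    by_cases hall : ∀ k : ℕ, 1 ≤ k → k ≤ p → k • P ≠ 0
    · exact (stepA h p hall p hp.one_le le_rfl).1 h0
    · push Not at hall
      have hex : ∃ k : ℕ, 1 ≤ k ∧ k • P = 0 := by
        obtain ⟨k, hk1, -, hk0⟩ := hall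
        exact ⟨k, hk1, hk0⟩
      classical
      let N := Nat.find hex
      have hN1 : 1 ≤ N := (Nat.find_spec hex).1
      have hN0 : N • P = 0 := (Nat.find_spec hex).2
      have hNmin : ∀ k : ℕ, 1 ≤ k → k < N → k • P ≠ 0 := fun k hk1 hkN hk0 =>
        Nat.find_min hex hkN ⟨hk1, hk0⟩
      have hNp : N ≤ p := by
        obtain ⟨k, hk1, hkp, hk0⟩ := hall
        exact (Nat.find_min' hex ⟨hk1, hk0⟩).trans hkp
      have hN_ne_one : N ≠ 1 := by
        intro e
        rw [e, one_nsmul] at hN0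
        exact hP hN0
      have hN_ne_p : N ≠ p := by
        intro e
        rw [e] at hN0
        exact hpP hN0
      have hndvd : ¬ N ∣ p := by
        intro hd
        rcases (Nat.dvd_prime hp).mp hd with e | e
        · exact hN_ne_one e
        · exact hN_ne_p e
      exact stepB h hΔ N (by omega) hNmin hN0 p hndvd h0
  · intro hpP
    have hord : ∀ k : ℕ, 1 ≤ k → k ≤ p - 1 → k • P ≠ 0 := by
      intro k hk1 hkp hk0
      have h1 : addOrderOf P ∣ k := addOrderOf_dvd_of_nsmul_eq_zero hk0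
      have h2 : addOrderOf P ∣ p := addOrderOf_dvd_of_nsmul_eq_zero hpP
      rcases (Nat.dvd_prime hp).mp h2 with e | e
      · exact hP (AddMonoid.addOrderOf_eq_one_iff.mp e)
      · rw [e] at h1
        have := Nat.le_of_dvd (by omega) h1
        have := hp.one_le
        omega
    have hp1 : p - 1 + 1 = p := Nat.sub_add_cancel hp.one_le
    have := hseq_first_zero h (p - 1) hord (by rw [hp1]; exact hpP)
    have e : ((p - 1 : ℕ) : ℤ) + 1 = (p : ℤ) := by
      have : ((p - 1 + 1 : ℕ) : ℤ) = (p : ℤ) := by rw [hp1]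
      push_cast at this
      exact this
    rwa [e] at this

/-- **Division polynomial theorem**, univariate form at an odd prime: the roots of `preΨ p` are
exactly the `x`-coordinates of the nonzero points killed by `p`. -/
theorem eval_preΨ_prime_eq_zero_iff (hΔ : W.Δ ≠ 0) {p : ℕ} (hp : p.Prime) (hp2 : p ≠ 2) :
    (W.preΨ p).eval x = 0 ↔ p • (Point.some x y h) = 0 := by
  have hodd : ¬ Even (p : ℤ) := by
    rw [Int.even_coe_nat]
    exact fun he => hp2 ((Nat.Prime.even_iff hp).mp he)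
  rw [← hseq_eq_eval_preΨ W h.1 hodd]
  exact hseq_prime_eq_zero_iff h hΔ hp

end StepB

end Fermat.Agent.H72
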